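import Fermat.Agent.WaringAsymptotic.Positivity
import Mathlib.RingTheory.ZMod.UnitsCyclic

/-!
# `4 k` powers represent everything modulo every prime power

Modulo `q = p ^ (v_p k + 1)`, `p` odd, every residue is a power times one of at most `2 k` residues:
the multiples of `p` and `g ^ i`, `i < k`, `g` a primitive root. The sums of `m` powers gain one of
them at each step until they are everything; for `p = 2` ones suffice. Hence the singular series of
Waring's problem is positive from `4 k` variables on.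
-/

set_option autoImplicit false

noncomputable section

namespace FA.WaringVinogradov

open Finset FA.WaringAsymptotic

/-- The residues that are sums of `m` powers. -/
def sumPowSet (k q : ℕ) [NeZero q] (m : ℕ) : Finset (ZMod q) :=
  (univ : Finset (Fin m → ZMod q)).image fun x => ∑ i, x i ^ k

theorem mem_sumPowSet {k q : ℕ} [NeZero q] {m : ℕ} {a : ZMod q} :
    a ∈ sumPowSet k q m ↔ ∃ x : Fin m → ZMod q, ∑ i, x i ^ k = a := by
  simp [sumPowSet]

/-- If every residue is a power of a unit times an element of `R`, more than `#R` powers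
represent every residue. -/
theorem sumPowSet_eq_univ {k q : ℕ} [NeZero q] (hk : 1 ≤ k) (R : Finset (ZMod q))
    (hR : ∀ a : ZMod q, ∃ r ∈ R, ∃ b : (ZMod q)ˣ, a = r * (b : ZMod q) ^ k) {m : ℕ}
    (hm : R.card < m) : sumPowSet k q m = univ := by
  suffices h : ∀ n, sumPowSet k q n = univ ∨ n ≤ (sumPowSet k q n ∩ R).card from
    (h m).resolve_right fun hle => by
      have := hle.trans (card_le_card inter_subset_right)
      omega
  intro n
  induction n with
  | zero => exact Or.inr (Nat.zero_le _)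
  | succ n ih =>
    have hsub : sumPowSet k q n ⊆ sumPowSet k q (n + 1) := fun a ha => by
      obtain ⟨x, rfl⟩ := mem_sumPowSet.1 ha
      exact mem_sumPowSet.2
        ⟨Fin.cons 0 x, by simp [Fin.sum_univ_succ, zero_pow (show k ≠ 0 by omega)]⟩
    rcases ih with h | h
    · exact Or.inl (eq_univ_of_forall fun a => hsub (h ▸ mem_univ a))
    by_cases hnew : sumPowSet k q (n + 1) ∩ R ⊆ sumPowSet k q n
    · left
      -- no new representative: the set is closed under adding `1`
      have hclosed : ∀ a ∈ sumPowSet k q (n + 1), a ∈ sumPowSet k q n := fun a ha => by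
        obtain ⟨r, hr, b, rfl⟩ := hR a
        obtain ⟨x, hx⟩ := mem_sumPowSet.1 ha
        have hr' : r ∈ sumPowSet k q (n + 1) := mem_sumPowSet.2
          ⟨fun i => x i * ((b⁻¹ : (ZMod q)ˣ) : ZMod q), by
            simp only [mul_pow, ← sum_mul, hx]
            rw [mul_assoc, ← mul_pow, Units.mul_inv, one_pow, mul_one]⟩
        obtain ⟨z, hz⟩ := mem_sumPowSet.1 (hnew (mem_inter.2 ⟨hr', hr⟩))
        exact mem_sumPowSet.2 ⟨fun i => z i * b, by simp only [mul_pow, ← sum_mul, hz]⟩
      have hall : ∀ j : ℕ, (j : ZMod q) ∈ sumPowSet k q n := by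
        intro j
        induction j with
        | zero => exact mem_sumPowSet.2 ⟨0, by simp [zero_pow (show k ≠ 0 by omega)]⟩
        | succ j ihj =>
          obtain ⟨x, hx⟩ := mem_sumPowSet.1 ihj
          refine hclosed _ (mem_sumPowSet.2 ⟨Fin.cons 1 x, ?_⟩)
          simp [Fin.sum_univ_succ, hx, add_comm]
      exact eq_univ_of_forall fun a => hsub (ZMod.natCast_zmod_val a ▸ hall a.val)
    · refine Or.inr ?_
      obtain ⟨r, hr, hr'⟩ := not_subset.1 hnew
      refine Nat.succ_le_of_lt (h.trans_lt (card_lt_card (ssubset_iff_of_subset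
        (inter_subset_inter_right hsub) |>.2 ⟨r, hr, fun h' => hr' (mem_inter.1 h').1⟩)))

/-- **`4 k` powers suffice modulo every prime power.** -/
theorem exists_pattern_four {k s : ℕ} (hk : 2 ≤ k) (hs : 4 * k ≤ s) (N p : ℕ) (hp : p.Prime) :
    ∃ (y : Fin s → ℕ) (i₀ : Fin s), ¬p ∣ y i₀ ∧
      ((p ^ (2 * padicValNat p k + 1) : ℕ) : ℤ) ∣ ((∑ i, y i ^ k : ℕ) : ℤ) - N := by
  obtain ⟨τ, hτ⟩ : ∃ τ, τ = padicValNat p k := ⟨_, rfl⟩
  rw [← hτ]
  have hd : p ^ τ ≤ k := hτ ▸ Nat.le_of_dvd (by omega) pow_padicValNat_dvd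
  rcases eq_or_ne p 2 with rfl | hp2
  · rcases Nat.eq_zero_or_pos τ with h0 | h0
    · subst h0
      obtain ⟨y, i₀, hy, hN⟩ := exists_pattern_low (g := 1) (show 1 ≤ k by omega)
        (show 1 ≤ s by omega) N hp (Or.inl (by omega))
      exact ⟨y, i₀, hy, hN⟩
    · obtain ⟨y, i₀, hy, hN⟩ := exists_pattern_low (g := τ + 2) (show 1 ≤ k by omega)
        (show 1 ≤ s by omega) N hp (Or.inl (by rw [pow_add]; omega))
      exact exists_pattern_lift (by omega) hp one_le_two (Or.inr (Or.inr le_rfl)) (by omega)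
        hτ.symm hy hN
  obtain ⟨q, hq⟩ : ∃ q, q = p ^ (τ + 1) := ⟨_, rfl⟩
  have : NeZero q := ⟨hq ▸ pow_ne_zero _ hp.ne_zero⟩
  obtain ⟨g, hg⟩ := (hq ▸ ZMod.isCyclic_units_of_prime_pow p hp hp2 (τ + 1) :
    IsCyclic (ZMod q)ˣ).exists_generator
  classical
  obtain ⟨R, hR⟩ : ∃ R : Finset (ZMod q), R =
      (range (p ^ τ)).image (fun i : ℕ => ((p * i : ℕ) : ZMod q)) ∪
        (range k).image fun i => ((g ^ i : (ZMod q)ˣ) : ZMod q) := ⟨_, rfl⟩
  have hcard : R.card < s - 1 := by
    have h1 : R.card ≤ p ^ τ + k := hR ▸ (card_union_le _ _).trans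
      (Nat.add_le_add (card_image_le.trans (by rw [card_range]))
        (card_image_le.trans (by rw [card_range])))
    omega
  have hcover : ∀ a : ZMod q, ∃ r ∈ R, ∃ b : (ZMod q)ˣ, a = r * (b : ZMod q) ^ k := by
    intro a
    by_cases hu : IsUnit a
    · obtain ⟨u, rfl⟩ := hu
      obtain ⟨j, rfl⟩ : ∃ j : ℕ, g ^ j = u := mem_powers_iff_mem_zpowers.2 (hg u)
      refine ⟨((g ^ (j % k) : (ZMod q)ˣ) : ZMod q), hR ▸ mem_union_right _
        (mem_image.2 ⟨j % k, mem_range.2 (Nat.mod_lt _ (by omega)), rfl⟩), g ^ (j / k), ?_⟩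
      rw [← Units.val_pow_eq_pow_val, ← Units.val_mul, ← pow_mul, ← pow_add, Nat.mod_add_div']
    · refine ⟨a, hR ▸ mem_union_left _ (mem_image.2 ?_), 1, by simp⟩
      obtain ⟨i, hi⟩ : p ∣ a.val := by
        by_contra h
        refine hu (ZMod.natCast_zmod_val a ▸ (ZMod.isUnit_iff_coprime _ _).2 ?_)
        have h1 := ((hp.coprime_iff_not_dvd.2 h).symm).pow_right (τ + 1)
        rwa [← hq] at h1
      refine ⟨i, mem_range.2 ?_, by rw [← hi, ZMod.natCast_zmod_val]⟩
      have := ZMod.val_lt a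
      rw [hi, hq, pow_succ'] at this
      exact Nat.lt_of_mul_lt_mul_left this
  obtain ⟨n, rfl⟩ : ∃ n, s = n + 1 := ⟨s - 1, by omega⟩
  have hfull := sumPowSet_eq_univ (show 1 ≤ k by omega) R hcover (show R.card < n by omega)
  obtain ⟨x, hx⟩ := mem_sumPowSet.1 (hfull ▸ mem_univ ((N : ZMod q) - 1) :
    (N : ZMod q) - 1 ∈ sumPowSet k q n)
  refine exists_pattern_lift (e := 1) (y := Fin.cons 1 fun i => (x i).val) (i₀ := 0) (by omega) hp
    le_rfl (Or.inr (Or.inl hp2)) (by omega) hτ.symm (by simpa using hp.not_dvd_one) ?_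
  rw [← hq, ← ZMod.intCast_zmod_eq_zero_iff_dvd]
  push_cast
  rw [Fin.sum_univ_succ]
  simp only [Fin.cons_zero, Fin.cons_succ, Nat.cast_one, one_pow, ZMod.natCast_zmod_val, hx]
  ring

/-- **The singular series is bounded below from `4 k` variables on.** -/
theorem exists_singularSeries_ge_four {k s : ℕ} (hk : 2 ≤ k) (hs : 4 * k ≤ s) :
    ∃ c : ℝ, 0 < c ∧ ∀ N, c ≤ singularSeries k s N :=
  exists_singularSeries_ge_of_pattern hk (by omega) fun N p hp => exists_pattern_four hk hs N p hp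

end FA.WaringVinogradov
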