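import Mathlib.Analysis.SpecialFunctions.Pow.Real
import Mathlib.Analysis.Complex.ExponentialBounds
import Mathlib.Data.Fin.Tuple.Basic
import Mathlib.Algebra.BigOperators.Fin

/-!
# Diminishing ranges

There are `≫ X ^ (k (1 - (1 - 1/k) ^ r))` numbers up to `(3 X) ^ k` that are sums of `r` `k`-th
powers: the intervals between consecutive powers from `X ^ k` on hold `X ^ (k - 1)` numbers each.
-/

set_option autoImplicit false

noncomputable section

namespace FA.WaringVinogradov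

open Finset

theorem pow_add_pow_pred_lt {j x : ℕ} (hj : 1 ≤ j) :
    x ^ (j + 1) + x ^ j < (x + 1) ^ (j + 1) := by
  have h : x ^ j < (x + 1) ^ j := Nat.pow_lt_pow_left (Nat.lt_succ_self x) (by omega)
  have h' := Nat.mul_le_mul_right x h.le
  rw [pow_succ, pow_succ, Nat.mul_add_one]
  omega

/-- **Diminishing ranges.** -/
theorem exists_diminishing {k : ℕ} (hk : 2 ≤ k) : ∀ r : ℕ, ∃ c : ℝ, 0 < c ∧ ∀ X : ℕ, 1 ≤ X →
    ∃ U : Finset ℕ, U ⊆ range ((3 * X) ^ k + 1) ∧
      (∀ u ∈ U, ∃ x : Fin r → ℕ, ∑ i, x i ^ k = u) ∧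
      c * (X : ℝ) ^ ((k : ℝ) * (1 - (1 - 1 / (k : ℝ)) ^ r)) ≤ U.card := by
  have hkr : (2 : ℝ) ≤ k := by exact_mod_cast hk
  have h1k : 1 / (k : ℝ) ≤ 1 / 2 := one_div_le_one_div_of_le two_pos hkr
  have hk0 : (0 : ℝ) < 1 / (k : ℝ) := by positivity
  obtain ⟨j, rfl⟩ : ∃ j, k = j + 1 := ⟨k - 1, by omega⟩
  intro r
  induction r with
  | zero =>
    exact ⟨1, one_pos, fun X _ => ⟨{0}, by simp, fun u hu => ⟨fun i => i.elim0,
      by simp [(mem_singleton.1 hu)]⟩, by simp⟩⟩
  | succ r ih =>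
    obtain ⟨c, hc, hU⟩ := ih
    obtain ⟨η, hη⟩ : ∃ η, η = (1 - 1 / ((j + 1 : ℕ) : ℝ)) ^ r := ⟨_, rfl⟩
    rw [← hη] at hU
    have hη0 : 0 ≤ η := hη ▸ pow_nonneg (by linarith) r
    have hη1 : η ≤ 1 := hη ▸ pow_le_one₀ (by linarith) (by linarith)
    refine ⟨min (c / (6 : ℝ) ^ (j + 1)) (1 / (9 : ℝ) ^ (j + 1)), by positivity, fun X hX => ?_⟩
    obtain ⟨e, he⟩ : ∃ e, e = 1 - 1 / ((j + 1 : ℕ) : ℝ) := ⟨_, rfl⟩
    rw [show (1 - 1 / ((j + 1 : ℕ) : ℝ)) ^ (r + 1) = η * e by rw [hη, he, pow_succ]]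
    have he2 : 1 / 2 ≤ e ∧ e ≤ 1 := he ▸ ⟨by linarith, by linarith⟩
    have hej : e * ((j + 1 : ℕ) : ℝ) = j := by
      rw [he, sub_mul, one_mul, one_div_mul_cancel (by positivity)]
      push_cast
      ring
    obtain ⟨E, hE⟩ : ∃ E : ℝ, E = ((j + 1 : ℕ) : ℝ) * (1 - η * e) := ⟨_, rfl⟩
    rw [← hE]
    have hXr : (1 : ℝ) ≤ X := by exact_mod_cast hX
    have hE0 : 0 ≤ E := hE ▸ mul_nonneg (Nat.cast_nonneg _) (by nlinarith)
    have hEk : E ≤ ((j + 1 : ℕ) : ℝ) :=
      hE ▸ mul_le_of_le_one_right (Nat.cast_nonneg _) (by nlinarith)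
    obtain ⟨X', hX'⟩ : ∃ X', X' = ⌊(X : ℝ) ^ e / 3⌋₊ := ⟨_, rfl⟩
    rcases Nat.eq_zero_or_pos X' with h0 | h0
    · refine ⟨{0}, by simp, fun u hu => ⟨fun _ => 0, by simp [(mem_singleton.1 hu)]⟩, ?_⟩
      rw [card_singleton, Nat.cast_one]
      have h3 : (X : ℝ) ^ e < 3 := by
        have := Nat.floor_eq_zero.1 (hX'.symm.trans h0)
        rwa [div_lt_one (by norm_num)] at this
      have h9 : (X : ℝ) ≤ 9 := by
        have h4 := (Real.rpow_le_rpow_of_exponent_le hXr he2.1).trans h3.le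
        rw [← Real.sqrt_eq_rpow, Real.sqrt_le_left (by norm_num)] at h4
        linarith
      refine (mul_le_mul (min_le_right _ _) ((Real.rpow_le_rpow (by linarith) h9 hE0).trans
        (Real.rpow_le_rpow_of_exponent_le (by norm_num) hEk)) (by positivity)
        (by positivity)).trans ?_
      rw [Real.rpow_natCast, one_div_mul_cancel (by positivity)]
    obtain ⟨U, hUr, hrep, hcard⟩ := hU X' h0
    have hXk : (3 * X') ^ (j + 1) ≤ X ^ j := by
      have h1 : (3 : ℝ) * X' ≤ (X : ℝ) ^ e := by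
        have := Nat.floor_le (show 0 ≤ (X : ℝ) ^ e / 3 by positivity)
        rw [← hX', le_div_iff₀ (by norm_num)] at this
        linarith
      have h2 := pow_le_pow_left₀ (by positivity) h1 (j + 1)
      rw [← Real.rpow_natCast ((X : ℝ) ^ e), ← Real.rpow_mul (by linarith), hej,
        Real.rpow_natCast] at h2
      exact_mod_cast h2
    have hUle : ∀ x, X ≤ x → ∀ u ∈ U, x ^ (j + 1) + u < (x + 1) ^ (j + 1) := fun x hx u hu => by
      have h1 := mem_range.1 (hUr hu)
      have h2 := Nat.pow_le_pow_left hx j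
      have h3 := pow_add_pow_pred_lt (x := x) (show 1 ≤ j by omega)
      omega
    refine ⟨((Ico X (2 * X)) ×ˢ U).image fun z => z.1 ^ (j + 1) + z.2, fun n hn => ?_,
      fun n hn => ?_, ?_⟩
    · obtain ⟨⟨x, u⟩, hz, rfl⟩ := mem_image.1 hn
      obtain ⟨hx, hu⟩ := mem_product.1 hz
      rw [mem_Ico] at hx
      have h1 := hUle x hx.1 u hu
      have h2 := Nat.pow_le_pow_left (show x + 1 ≤ 3 * X by omega) (j + 1)
      rw [mem_range]
      dsimp only
      omega
    · obtain ⟨⟨x, u⟩, hz, rfl⟩ := mem_image.1 hn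
      obtain ⟨z, hz'⟩ := hrep u (mem_product.1 hz).2
      exact ⟨Fin.cons x z, by simp [Fin.sum_univ_succ, hz']⟩
    · rw [card_image_of_injOn, card_product, Nat.card_Ico, show 2 * X - X = X by omega]
      · push_cast
        have h1 : (X : ℝ) ^ e / 6 ≤ X' := by
          have h2 := Nat.lt_floor_add_one ((X : ℝ) ^ e / 3)
          rw [← hX'] at h2
          have h3 : (1 : ℝ) ≤ X' := by exact_mod_cast h0
          linarith
        obtain ⟨F, hF⟩ : ∃ F : ℝ, F = ((j + 1 : ℕ) : ℝ) * (1 - η) := ⟨_, rfl⟩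
        rw [← hF] at hcard
        have hF0 : 0 ≤ F := hF ▸ mul_nonneg (Nat.cast_nonneg _) (by linarith)
        have hEF : E = 1 + e * F := by
          rw [hE, hF]
          push_cast at hej ⊢
          linear_combination -hej
        calc min (c / (6 : ℝ) ^ (j + 1)) (1 / (9 : ℝ) ^ (j + 1)) * (X : ℝ) ^ E
            ≤ c / (6 : ℝ) ^ F * (X : ℝ) ^ E := by
              refine mul_le_mul_of_nonneg_right ((min_le_left _ _).trans ?_) (by positivity)
              refine div_le_div_of_nonneg_left hc.le (by positivity) ?_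
              rw [← Real.rpow_natCast]
              exact Real.rpow_le_rpow_of_exponent_le (by norm_num)
                (hF ▸ mul_le_of_le_one_right (Nat.cast_nonneg _) (by linarith))
          _ = (X : ℝ) * (c * ((X : ℝ) ^ e / 6) ^ F) := by
              rw [hEF, Real.rpow_add (by linarith), Real.rpow_one, Real.rpow_mul (by linarith),
                Real.div_rpow (by positivity) (by norm_num)]
              ring
          _ ≤ (X : ℝ) * (c * (X' : ℝ) ^ F) := by gcongr
          _ ≤ _ := mul_le_mul_of_nonneg_left hcard (by linarith)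
      · rintro ⟨x, u⟩ hz ⟨x', u'⟩ hz' he'
        simp only [coe_product, Set.mem_prod, mem_coe, mem_Ico] at hz hz'
        simp only at he'
        have h1 := hUle x hz.1.1 u hz.2
        have h2 := hUle x' hz'.1.1 u' hz'.2
        rcases lt_trichotomy x x' with h | rfl | h
        · have := Nat.pow_le_pow_left (show x + 1 ≤ x' by omega) (j + 1)
          omega
        · exact Prod.ext rfl (by omega)
        · have := Nat.pow_le_pow_left (show x' + 1 ≤ x by omega) (j + 1)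
          omega

/-- `(1 - 1/k) ^ r ≤ 1 / (80 k ^ 2)` for `r ≥ k (2 log k + 9/2)`. -/
theorem decay_le {k r : ℕ} (hk : 2 ≤ k) (hr : (k : ℝ) * (2 * Real.log k + 9 / 2) ≤ r) :
    (1 - 1 / (k : ℝ)) ^ r ≤ 1 / (80 * (k : ℝ) ^ 2) := by
  have hk0 : (0 : ℝ) < k := Nat.cast_pos.2 (by omega)
  have h1 : 1 / (k : ℝ) ≤ 1 := by
    rw [div_le_one hk0]
    exact_mod_cast (show 1 ≤ k by omega)
  refine (pow_le_pow_left₀ (by linarith) (Real.one_sub_le_exp_neg (1 / (k : ℝ))) r).trans ?_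
  rw [← Real.exp_nat_mul, ← Real.le_log_iff_exp_le (by positivity), one_div (80 * (k : ℝ) ^ 2),
    Real.log_inv, Real.log_mul (by norm_num) (by positivity), Real.log_pow]
  have h80 : Real.log 80 ≤ 9 / 2 := by
    rw [Real.log_le_iff_le_exp (by norm_num), show (9 / 2 : ℝ) = 9 * (1 / 2) by norm_num,
      show (9 : ℝ) * (1 / 2) = ((9 : ℕ) : ℝ) * (1 / 2) by norm_num, Real.exp_nat_mul]
    have h2 : (1.6487 : ℝ) ≤ Real.exp (1 / 2) := by
      have := Real.exp_one_gt_d9
      rw [show (1 : ℝ) = 1 / 2 + 1 / 2 by norm_num, Real.exp_add] at this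
      nlinarith [Real.exp_pos (1 / 2 : ℝ)]
    exact le_trans (by norm_num) (pow_le_pow_left₀ (by norm_num) h2 9)
  have h3 : 2 * Real.log k + 9 / 2 ≤ (r : ℝ) * (1 / k) := by
    rw [mul_one_div, le_div_iff₀ hk0]
    linarith
  push_cast
  linarith

end FA.WaringVinogradov
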