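import Fermat.Agent.ThreePrimes.Circle
import Fermat.Agent.WaringVinogradov.Diminishing
import Mathlib.Algebra.Order.Chebyshev

/-!
# The bilinear sum on the minor arcs

`V = ∑_{u ∈ U} ∑_{Y < y ≤ 2 Y} e (α y ^ k u)` with `U` any set of numbers up to `H`. Off the arcs
`|α - a/q| ≤ R / N`, `q ≤ R`, one has `|V| ² ≤ #U Y (H + 1 + Y n + N / R)` for `2 R ≤ n`,
`(2 Y) ^ k ≤ R`: Cauchy's inequality and Dirichlet's approximation with denominator up to `n`.
-/

set_option autoImplicit false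

noncomputable section

namespace FA.WaringVinogradov

open Finset FA.ThreePrimes ComplexConjugate

/-- `∑_{u ∈ U} ∑_{Y < y ≤ 2 Y} e (α y ^ k u)`. -/
def bilinSum (k Y : ℕ) (U : Finset ℕ) (α : ℝ) : ℂ :=
  ∑ u ∈ U, ∑ y ∈ Ioc Y (2 * Y), eAdd (α * (y : ℝ) ^ k * u)

theorem norm_bilinSum_le (k Y : ℕ) (U : Finset ℕ) (α : ℝ) :
    ‖bilinSum k Y U α‖ ≤ U.card * (Y : ℝ) := by
  refine (norm_sum_le _ _).trans ((sum_le_card_nsmul _ _ (Y : ℝ) fun u _ => ?_).trans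
    (le_of_eq (nsmul_eq_mul _ _)))
  refine (norm_sum_le _ _).trans (le_of_eq ?_)
  simp [norm_eAdd, show 2 * Y - Y = Y by omega]

theorem norm_geom_range_le (x : ℝ) (H : ℕ) :
    ‖∑ u ∈ range (H + 1), eAdd (u * x)‖ ≤ clip ((H + 1 : ℕ) : ℝ) x := by
  have e : ∑ u ∈ range (H + 1), eAdd (u * x) =
      eAdd (-x) * ∑ n ∈ Ioc 0 (H + 1), eAdd (n * x) := by
    rw [show Ioc 0 (H + 1) = (range (H + 1)).image (· + 1) by
      ext n
      simp only [mem_Ioc, mem_image, mem_range]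
      exact ⟨fun h => ⟨n - 1, by omega, by omega⟩, fun ⟨m, hm, e⟩ => by omega⟩,
      sum_image fun _ _ _ _ h => Nat.add_right_cancel h, mul_sum]
    refine sum_congr rfl fun u _ => ?_
    rw [← eAdd_add]
    push_cast
    ring_nf
  rw [e, norm_mul, norm_eAdd, one_mul]
  simpa using norm_geom_le x 0 (H + 1)

/-- **Cauchy's inequality.** -/
theorem norm_bilinSum_sq_le {k Y H : ℕ} {U : Finset ℕ} (hU : U ⊆ range (H + 1)) (α : ℝ) :
    ‖bilinSum k Y U α‖ ^ 2 ≤ U.card * ∑ y ∈ Ioc Y (2 * Y), ∑ y' ∈ Ioc Y (2 * Y),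
      clip ((H + 1 : ℕ) : ℝ) (α * ((y : ℝ) ^ k - (y' : ℝ) ^ k)) := by
  obtain ⟨f, hf⟩ : ∃ f : ℕ → ℂ, f = fun u : ℕ => ∑ y ∈ Ioc Y (2 * Y),
      eAdd (α * (y : ℝ) ^ k * u) := ⟨_, rfl⟩
  have h1 : ‖bilinSum k Y U α‖ ^ 2 ≤ U.card * ∑ u ∈ range (H + 1), ‖f u‖ ^ 2 := by
    rw [bilinSum, hf]
    refine le_trans (pow_le_pow_left₀ (norm_nonneg _) (norm_sum_le _ _) 2)
      (sq_sum_le_card_mul_sum_sq.trans (mul_le_mul_of_nonneg_left
        (sum_le_sum_of_subset_of_nonneg hU fun i _ _ => by positivity) (Nat.cast_nonneg _)))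
  refine h1.trans (mul_le_mul_of_nonneg_left ?_ (Nat.cast_nonneg _))
  have e : ((∑ u ∈ range (H + 1), ‖f u‖ ^ 2 : ℝ) : ℂ) = ∑ y ∈ Ioc Y (2 * Y),
      ∑ y' ∈ Ioc Y (2 * Y), ∑ u ∈ range (H + 1),
        eAdd (u * (α * ((y : ℝ) ^ k - (y' : ℝ) ^ k))) := by
    rw [Complex.ofReal_sum, sum_congr rfl fun y _ => sum_comm, sum_comm]
    refine sum_congr rfl fun u _ => ?_
    rw [Complex.ofReal_pow, ← Complex.mul_conj', hf, map_sum, sum_mul_sum]
    refine sum_congr rfl fun y _ => sum_congr rfl fun y' _ => ?_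
    rw [conj_eAdd, ← eAdd_add]
    ring_nf
  refine le_trans (le_trans (le_abs_self _) (le_of_eq ?_))
    ((norm_sum_le _ _).trans (sum_le_sum fun y _ => (norm_sum_le _ _).trans
      (sum_le_sum fun y' _ => norm_geom_range_le _ H)))
  rw [← e, Complex.norm_real, Real.norm_eq_abs]

/-- Two different powers in `(Y, 2 Y]` differ by at least `Y`. -/
theorem le_abs_pow_sub_pow {k Y y y' : ℕ} (hk : 2 ≤ k) (hy : y ∈ Ioc Y (2 * Y))
    (hy' : y' ∈ Ioc Y (2 * Y)) (hne : y ≠ y') :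
    (Y : ℤ) ≤ |(y : ℤ) ^ k - (y' : ℤ) ^ k| := by
  obtain ⟨j, rfl⟩ : ∃ j, k = j + 1 := ⟨k - 1, by omega⟩
  rw [mem_Ioc] at hy hy'
  wlog h : y' < y generalizing y y'
  · rw [abs_sub_comm]
    exact this hy' hy hne.symm (by omega)
  have h1 := pow_add_pow_pred_lt (x := y') (show 1 ≤ j by omega)
  have h2 := Nat.pow_le_pow_left (show y' + 1 ≤ y from h) (j + 1)
  have h3 : Y ≤ y' ^ j := hy'.1.le.trans (Nat.le_self_pow (by omega) y')
  have h4 : y' ^ (j + 1) + Y ≤ y ^ (j + 1) := by omega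
  refine le_trans ?_ (le_abs_self _)
  zify at h4
  linarith

/-- **The minor arcs.** -/
theorem norm_bilinSum_sq_le_minor {k Y H N n : ℕ} {U : Finset ℕ} {R α : ℝ} (hk : 2 ≤ k)
    (hY : 1 ≤ Y) (hN : 1 ≤ N) (hU : U ⊆ range (H + 1)) (hYR : ((2 * Y : ℕ) : ℝ) ^ k ≤ R)
    (hn : 2 * R ≤ n)
    (hout : ∀ z ∈ arcCentres ⌊R⌋₊, R / N < nearDist (α - centre z)) :
    ‖bilinSum k Y U α‖ ^ 2 ≤
      U.card * ((Y : ℝ) * ((H + 1 : ℕ) + (Y : ℝ) * n + N / R)) := by
  have hY0 : (0 : ℝ) < Y := Nat.cast_pos.2 hY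
  have hR0 : 0 < R := lt_of_lt_of_le (pow_pos (Nat.cast_pos.2 (by omega)) k) hYR
  have hn0 : 0 < n := by
    have : (0 : ℝ) < n := by linarith
    exact Nat.cast_pos.1 this
  obtain ⟨ρ, hρ, hρn⟩ := Real.exists_rat_abs_sub_le_and_den_le α hn0
  obtain ⟨q, hq⟩ : ∃ q, q = ρ.den := ⟨_, rfl⟩
  have : NeZero q := ⟨hq ▸ ρ.den_ne_zero⟩
  have hq0 : (0 : ℝ) < q := Nat.cast_pos.2 (NeZero.pos q)
  have hρv : (ρ : ℝ) = (ρ.num : ℝ) / q := by rw [hq, Rat.cast_def]
  rw [hρv, ← hq] at hρ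
  obtain ⟨β, hβ⟩ : ∃ β, β = α - (ρ.num : ℝ) / q := ⟨_, rfl⟩
  rw [← hβ] at hρ
  have hcop : IsCoprime (q : ℤ) ρ.num := by
    rw [isCoprime_comm, Int.isCoprime_iff_nat_coprime, hq]
    simpa using ρ.reduced
  -- a small denominator gives a large `β`
  have hbig : (q : ℝ) ≤ R → R / N < |β| := fun hle => by
    obtain ⟨r, hr⟩ : ∃ r, r = (ρ.num : ZMod q).val := ⟨_, rfl⟩
    have hu : IsUnit (ρ.num : ZMod q) := by
      rw [ZMod.coe_int_isUnit_iff_isCoprime]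
      exact hcop
    have hmem : (⟨q, r⟩ : Σ _ : ℕ, ℕ) ∈ arcCentres ⌊R⌋₊ := by
      refine mem_arcCentres.2 ⟨⟨NeZero.pos q, Nat.le_floor hle⟩, hr ▸ ZMod.val_lt _, ?_⟩
      have h1 : IsUnit ((r : ℕ) : ZMod q) := by rwa [hr, ZMod.natCast_zmod_val]
      exact ((ZMod.isUnit_iff_coprime r q).1 h1).symm
    obtain ⟨m, hm⟩ : (q : ℤ) ∣ ρ.num - r := by
      rw [← ZMod.intCast_zmod_eq_zero_iff_dvd, hr]
      push_cast
      rw [ZMod.natCast_zmod_val, sub_self]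
    refine (hout _ hmem).trans_le ((nearDist_le_abs_sub _ m).trans (le_of_eq ?_))
    have h3 : (ρ.num : ℝ) - r = q * m := by exact_mod_cast hm
    rw [hβ]
    congr 1
    simp only [centre]
    field_simp
    linarith
  have hoff : ∀ y ∈ Ioc Y (2 * Y), ∀ y' ∈ Ioc Y (2 * Y), y ≠ y' →
      clip ((H + 1 : ℕ) : ℝ) (α * ((y : ℝ) ^ k - (y' : ℝ) ^ k)) ≤ n + N / (R * Y) := by
    intro y hy y' hy' hne
    obtain ⟨D, hD⟩ : ∃ D : ℤ, D = (y : ℤ) ^ k - (y' : ℤ) ^ k := ⟨_, rfl⟩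
    have hDlow : (Y : ℝ) ≤ |(D : ℝ)| := by
      rw [← Int.cast_abs]
      exact_mod_cast hD ▸ le_abs_pow_sub_pow hk hy hy' hne
    have hDhigh : |(D : ℝ)| < R := by
      have h1 : ∀ z ∈ Ioc Y (2 * Y), 0 < (z : ℝ) ^ k ∧ (z : ℝ) ^ k ≤ R := fun z hz => by
        rw [mem_Ioc] at hz
        exact ⟨pow_pos (Nat.cast_pos.2 (by omega)) k, (pow_le_pow_left₀ (Nat.cast_nonneg z)
          (Nat.cast_le.2 hz.2) k).trans hYR⟩
      have := h1 y hy
      have := h1 y' hy'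
      rw [hD, abs_lt]
      push_cast
      constructor <;> linarith
    have hβD : |β * D| ≤ 1 / (2 * q) := by
      rw [abs_mul]
      refine (mul_le_mul hρ hDhigh.le (abs_nonneg _) (by positivity)).trans ?_
      rw [div_mul_eq_mul_div, one_mul, div_le_div_iff₀ (by positivity) (by positivity), one_mul]
      have h1 : 2 * R * q ≤ ((n : ℝ) + 1) * q := mul_le_mul_of_nonneg_right (by linarith) hq0.le
      linarith
    rw [show α * ((y : ℝ) ^ k - (y' : ℝ) ^ k) = (ρ.num : ℝ) * D / q + β * D by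
      rw [hβ, hD]; push_cast; ring]
    have hNR : 0 ≤ N / (R * Y) := by positivity
    have hn' : 0 ≤ (n : ℝ) := Nat.cast_nonneg n
    by_cases hdvd : (q : ℤ) ∣ D
    · obtain ⟨d, hd⟩ := hdvd
      have hqD : (q : ℝ) ≤ R := by
        refine le_trans ?_ hDhigh.le
        have hD0 : D ≠ 0 := fun h => by
          rw [h, Int.cast_zero, abs_zero] at hDlow
          linarith
        rw [← Int.cast_abs]
        exact_mod_cast Int.le_of_dvd (abs_pos.2 hD0) ((dvd_abs _ _).2 ⟨d, hd⟩)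
      have hbD : R / N * Y ≤ |β * D| := by
        rw [abs_mul]
        exact mul_le_mul (hbig hqD).le hDlow hY0.le (abs_nonneg _)
      have hhalf : |β * D| ≤ 1 / 2 := hβD.trans (one_div_le_one_div_of_le two_pos
        (le_mul_of_one_le_right two_pos.le (by exact_mod_cast NeZero.pos q)))
      refine (clip_le_inv (δ := R / N * Y) (by positivity) ?_).trans ?_
      · rw [show (ρ.num : ℝ) * D / q + β * D = β * D + ((ρ.num * d : ℤ) : ℝ) by
          rw [hd]; push_cast; field_simp; ring, nearDist_add_intCast, nearDist_eq_abs hhalf]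
        exact hbD
      · rw [show 1 / (2 * (R / (N : ℝ) * Y)) = N / (R * Y) / 2 by field_simp]
        linarith
    · obtain ⟨x, hx⟩ : ∃ x, x = (ρ.num : ℝ) * D / q := ⟨_, rfl⟩
      rw [← hx]
      have h1 : 1 / (q : ℝ) ≤ nearDist x := by
        rw [nearDist, show x - (round x : ℝ) = ((ρ.num * D - q * round x : ℤ) : ℝ) / q by
          rw [hx]; push_cast; field_simp, abs_div, abs_of_pos hq0]
        refine div_le_div_of_nonneg_right ?_ hq0.le
        rw [← Int.cast_abs]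
        exact_mod_cast Int.one_le_abs (fun h0 : ρ.num * D - q * round x = 0 =>
          hdvd (hcop.dvd_of_dvd_mul_left ⟨round x, sub_eq_zero.1 h0⟩))
      have h2 := nearDist_sub_le x (x + β * D)
      rw [show |x - (x + β * D)| = |β * D| by rw [sub_add_cancel_left, abs_neg]] at h2
      refine (clip_le_inv (δ := 1 / (2 * (q : ℝ))) (by positivity) ?_).trans ?_
      · rw [show 1 / (q : ℝ) = 1 / (2 * q) + 1 / (2 * q) by field_simp; ring] at h1
        linarith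
      · rw [show 1 / (2 * (1 / (2 * (q : ℝ)))) = q by field_simp]
        have : (q : ℝ) ≤ n := Nat.cast_le.2 (hq ▸ hρn)
        linarith
  refine (norm_bilinSum_sq_le hU α).trans (mul_le_mul_of_nonneg_left ?_ (Nat.cast_nonneg _))
  refine (sum_le_card_nsmul _ _ (((H + 1 : ℕ) : ℝ) + (Y : ℝ) * (n + N / (R * Y)))
    fun y hy => ?_).trans (le_of_eq ?_)
  · rw [← add_sum_erase _ _ hy]
    refine add_le_add (clip_le _ _) ((sum_le_card_nsmul _ _ _ fun y' hy' =>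
      hoff y hy y' (mem_of_mem_erase hy') (ne_of_mem_erase hy').symm).trans ?_)
    rw [nsmul_eq_mul]
    refine mul_le_mul_of_nonneg_right ?_ (by positivity)
    rw [card_erase_of_mem hy, Nat.card_Ioc]
    exact Nat.cast_le.2 (by omega)
  · rw [Nat.card_Ioc, show 2 * Y - Y = Y by omega, nsmul_eq_mul]
    field_simp
    ring

end FA.WaringVinogradov
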