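import Fermat.Agent.WaringVinogradov.Major
import Fermat.Agent.WaringVinogradov.Minor

/-!
# Vinogradov's bound `G (k) = O (k log k)`

With `4 k` free powers, two sums of `r` diminishing powers up to `(3 P / 8) ^ k` and the products
`y ^ k u`, `u` a third such sum, the major arcs exceed the minor ones for `r ≥ k (2 log k + 9/2)`:
every large number is a sum of `4 k + 3 r` powers.
-/

set_option autoImplicit false

noncomputable section

namespace FA.WaringVinogradov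

open Finset FA.ThreePrimes FA.WaringAsymptotic Filter Topology ComplexConjugate
open scoped Real

theorem exists_powers_add {k i j a b : ℕ} (ha : ∃ x : Fin i → ℕ, ∑ l, x l ^ k = a)
    (hb : ∃ x : Fin j → ℕ, ∑ l, x l ^ k = b) : ∃ x : Fin (i + j) → ℕ, ∑ l, x l ^ k = a + b := by
  obtain ⟨x, rfl⟩ := ha
  obtain ⟨y, rfl⟩ := hb
  exact ⟨Fin.append x y, by simp [Fin.sum_univ_add]⟩

theorem exists_powers_mono {k i s a : ℕ} (hk : 1 ≤ k) (his : i ≤ s)
    (ha : ∃ x : Fin i → ℕ, ∑ l, x l ^ k = a) : ∃ x : Fin s → ℕ, ∑ l, x l ^ k = a := by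
  obtain ⟨d, rfl⟩ := Nat.exists_eq_add_of_le his
  simpa using exists_powers_add ha
    (b := 0) (j := d) ⟨fun _ => 0, by simp [zero_pow (show k ≠ 0 by omega)]⟩

/-- Parseval on the grid for a set of numbers below `M`. -/
theorem sum_norm_sq_setSum {M : ℕ} {U : Finset ℕ} (hU : U ⊆ range M) :
    ∑ h ∈ range M, ‖∑ u ∈ U, eAdd (u * ((h : ℝ) / M))‖ ^ 2 = M * U.card := by
  apply Complex.ofReal_injective
  have e : ∀ h : ℕ, ((‖∑ u ∈ U, eAdd (u * ((h : ℝ) / M))‖ ^ 2 : ℝ) : ℂ) =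
      ∑ u ∈ U, ∑ v ∈ U, eAdd ((((u : ℤ) - v : ℤ) : ℝ) * h / M) := fun h => by
    rw [Complex.ofReal_pow, ← Complex.mul_conj', map_sum, sum_mul_sum]
    refine sum_congr rfl fun u _ => sum_congr rfl fun v _ => ?_
    rw [conj_eAdd, ← eAdd_add]
    push_cast
    ring_nf
  rw [Complex.ofReal_sum, sum_congr rfl fun h _ => e h, sum_comm, Complex.ofReal_mul,
    Complex.ofReal_natCast, Complex.ofReal_natCast]
  rw [sum_congr rfl fun u _ => sum_comm,
    sum_congr rfl fun u hu => (sum_eq_single_of_mem u hu fun v hv hne => ?_).trans ?_,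
    sum_const, nsmul_eq_mul, mul_comm]
  · rw [sum_eAdd_grid (by have := mem_range.1 (hU hu); omega), if_neg]
    intro hd
    have h1 := mem_range.1 (hU hu)
    have h2 := mem_range.1 (hU hv)
    have := Int.eq_zero_of_abs_lt_dvd hd (abs_lt.2 ⟨by omega, by omega⟩)
    omega
  · rw [sum_eAdd_grid (by have := mem_range.1 (hU hu); omega), if_pos (by simp)]

theorem seven_mul_three_pow_le : ∀ k : ℕ, 2 ≤ k → 7 * 3 ^ k ≤ 8 ^ k := fun k hk => by
  induction k, hk using Nat.le_induction with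
  | base => norm_num
  | succ n _ ih => rw [pow_succ, pow_succ]; omega

theorem seven_mul_pow_le {k P A : ℕ} (hk : 2 ≤ k) (hA : 8 * A ≤ 3 * P) : 7 * A ^ k ≤ P ^ k := by
  have h := Nat.pow_le_pow_left hA k
  rw [mul_pow, mul_pow] at h
  have h' := Nat.mul_le_mul_right (P ^ k) (seven_mul_three_pow_le k hk)
  refine Nat.le_of_mul_le_mul_left ?_ (pow_pos (show 0 < 3 by norm_num) k)
  calc 3 ^ k * (7 * A ^ k) = 7 * 3 ^ k * A ^ k := by ring
    _ ≤ 8 ^ k * A ^ k := Nat.mul_le_mul_right _ (seven_mul_three_pow_le k hk)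
    _ ≤ 3 ^ k * P ^ k := h

/-- **Vinogradov's theorem with the number of powers.** -/
theorem exists_sum_powers {k r s : ℕ} (hk : 2 ≤ k)
    (hr : (k : ℝ) * (2 * Real.log k + 9 / 2) ≤ r) (hs : 4 * k + 3 * r ≤ s) :
    ∃ N₀ : ℕ, ∀ N, N₀ ≤ N → ∃ x : Fin s → ℕ, ∑ i, x i ^ k = N := by
  have hk0 : (0 : ℝ) < k := by exact_mod_cast (show 0 < k by omega)
  obtain ⟨η, hη⟩ : ∃ η, η = (1 - 1 / (k : ℝ)) ^ r := ⟨_, rfl⟩
  have hη' : η ≤ 1 / (80 * (k : ℝ) ^ 2) := hη ▸ decay_le hk hr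
  have hη0 : 0 ≤ η := by
    rw [hη]
    refine pow_nonneg (sub_nonneg.2 ?_) r
    rw [div_le_one hk0]
    exact_mod_cast (show 1 ≤ k by omega)
  obtain ⟨E, hE⟩ : ∃ E : ℝ, E = (k : ℝ) * (1 - η) := ⟨_, rfl⟩
  have hEk : E ≤ k := hE ▸ mul_le_of_le_one_right hk0.le (by linarith)
  have hη1 : η ≤ 1 := hη ▸ pow_le_one₀ (sub_nonneg.2 (by
    rw [div_le_one hk0]; exact_mod_cast (show 1 ≤ k by omega))) (by
    linarith [one_div_pos.2 hk0])
  have hE0 : 0 ≤ E := hE ▸ mul_nonneg hk0.le (by linarith)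
  obtain ⟨cU, hcU, hU⟩ := exists_diminishing hk r
  simp only [← hη, ← hE] at hU
  obtain ⟨t, ht⟩ : ∃ t, t = 4 * k := ⟨_, rfl⟩
  obtain ⟨c, P₁, hc, hmaj⟩ := exists_majorPart_ge hk ht
  obtain ⟨K, hK⟩ : ∃ K : ℝ, K = 2 ^ k + 3 := ⟨_, rfl⟩
  obtain ⟨L, hL⟩ : ∃ L : ℝ, L = c ^ 2 * cU ^ 3 * (1 / 16) ^ (2 * k) * (1 / 32) ^ k := ⟨_, rfl⟩
  have hL0 : 0 < L := hL ▸ by positivity
  have hev : ∀ᶠ P : ℕ in atTop, K * 2 ^ (3 * k) * 4 / L < (P : ℝ) ^ (1 / (16 * (k : ℝ))) ∧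
      2 ≤ ((P : ℝ) ^ (1 / (10 * (k : ℝ)))) ∧ 64 ≤ P ∧ P₁ ≤ P := by
    have h := fun e (he : 0 < e) => (tendsto_rpow_atTop he).comp
      (tendsto_natCast_atTop_atTop (R := ℝ))
    exact ((h _ (show 0 < 1 / (16 * (k : ℝ)) by positivity)).eventually
      (eventually_gt_atTop _)).and (((h _ (show 0 < 1 / (10 * (k : ℝ)) by positivity)).eventually
        (eventually_ge_atTop _)).and ((eventually_ge_atTop 64).and (eventually_ge_atTop P₁)))
  obtain ⟨N₀, hN₀⟩ := eventually_atTop.1 ((tendsto_rootFloor (show 1 ≤ k by omega)).eventually hev)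
  refine ⟨max N₀ 1, fun N hN => exists_powers_mono (i := t + (r + r + r)) (by omega) (by omega) ?_⟩
  have hN1 : 1 ≤ N := le_trans (le_max_right _ _) hN
  obtain ⟨hbig, hRk2, hP64, hPP₁⟩ := hN₀ N (le_trans (le_max_left _ _) hN)
  obtain ⟨hP1, hPN, hNP⟩ := rootFloor_spec (show 1 ≤ k by omega) hN1
  obtain ⟨P, hP⟩ : ∃ P, P = rootFloor k N := ⟨_, rfl⟩
  rw [← hP] at hbig hRk2 hP64 hP1 hPN hNP
  have hPr : (64 : ℝ) ≤ P := by exact_mod_cast hP64
  obtain ⟨R, hR⟩ : ∃ R, R = (P : ℝ) ^ (1 / 10 : ℝ) := ⟨_, rfl⟩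
  obtain ⟨Z, hZ⟩ : ∃ Z, Z = (P : ℝ) ^ (1 / (10 * (k : ℝ))) := ⟨_, rfl⟩
  rw [← hZ] at hRk2
  have hZk : Z ^ k = R := by
    rw [hZ, hR, ← Real.rpow_natCast, ← Real.rpow_mul (by linarith)]
    congr 1
    field_simp
  have hR1 : 1 ≤ R := hR ▸ Real.one_le_rpow (by linarith) (by norm_num)
  have hR2 : R * R ≤ P := by
    rw [hR, ← Real.rpow_add (by linarith)]
    exact Real.rpow_le_self_of_one_le (by linarith) (by norm_num)
  have h2R : 2 * R ≤ P := by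
    rcases le_total R 2 with h | h
    · linarith
    · exact (mul_le_mul_of_nonneg_right h (by linarith)).trans hR2
  obtain ⟨Y, hY⟩ : ∃ Y, Y = ⌊Z / 2⌋₊ := ⟨_, rfl⟩
  have hY1 : 1 ≤ Y := hY ▸ Nat.le_floor (by push_cast; linarith)
  have hY2 : 2 * (Y : ℝ) ≤ Z := by
    have := Nat.floor_le (show 0 ≤ Z / 2 by linarith)
    rw [← hY] at this
    linarith
  have hY3 : Z / 2 ≤ 2 * (Y : ℝ) := by
    have := Nat.lt_floor_add_one (Z / 2)
    rw [← hY] at this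
    have : (1 : ℝ) ≤ Y := by exact_mod_cast hY1
    linarith
  have hYR : ((2 * Y : ℕ) : ℝ) ^ k ≤ R := by
    rw [← hZk]
    push_cast
    exact pow_le_pow_left₀ (by positivity) hY2 k
  have hYR' : (Y : ℝ) ≤ R := by
    refine le_trans ?_ hYR
    exact_mod_cast (show Y ≤ (2 * Y) ^ k from
      (Nat.le_mul_of_pos_left Y two_pos).trans (Nat.le_self_pow (by omega) _))
  have h16 : 16 * Y ≤ P := by
    have h1 : 2 * (16 * (Y : ℝ)) ≤ P * 2 := by
      have hZR : Z ≤ R := hZk ▸ le_self_pow₀ (by linarith) (by omega)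
      rcases le_total R 8 with h | h
      · linarith
      · linarith [mul_le_mul_of_nonneg_right h (show 0 ≤ R by linarith)]
    exact_mod_cast (show (16 * (Y : ℝ)) ≤ P by linarith)
  obtain ⟨X₁, hX₁⟩ : ∃ X, X = P / 8 := ⟨_, rfl⟩
  obtain ⟨X₃, hX₃⟩ : ∃ X, X = P / (16 * Y) := ⟨_, rfl⟩
  have hX₁1 : 1 ≤ X₁ := by omega
  have hX₃1 : 1 ≤ X₃ := hX₃ ▸ (Nat.one_le_div_iff (by omega)).2 h16
  have hX₃le : 16 * Y * X₃ ≤ P := hX₃ ▸ Nat.mul_div_le P (16 * Y)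
  have hX₃ge : P ≤ 32 * Y * X₃ := by
    have h1 := (Nat.lt_mul_div_succ P (show 0 < 16 * Y by omega)).le
    rw [← hX₃] at h1
    have h2 : 16 * Y * (X₃ + 1) ≤ 16 * Y * (2 * X₃) := Nat.mul_le_mul_left _ (by omega)
    calc P ≤ _ := h1.trans h2
      _ = _ := by ring
  obtain ⟨U₁, hU₁r, hU₁rep, hU₁card⟩ := hU X₁ hX₁1
  obtain ⟨U₃, hU₃r, hU₃rep, hU₃card⟩ := hU X₃ hX₃1
  have hsize₁ : ∀ u ∈ U₁, 7 * u ≤ N := fun u hu => by
    have h1 := mem_range.1 (hU₁r hu)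
    have h2 := seven_mul_pow_le hk (show 8 * (3 * X₁) ≤ 3 * P by omega)
    omega
  have h7H : 7 * ((2 * Y) ^ k * (3 * X₃) ^ k) ≤ P ^ k := by
    rw [← mul_pow]
    refine seven_mul_pow_le hk ?_
    calc 8 * (2 * Y * (3 * X₃)) = 3 * (16 * Y * X₃) := by ring
      _ ≤ _ := Nat.mul_le_mul_left 3 hX₃le
  obtain ⟨T, hT⟩ : ∃ T, T = (U₁ ×ˢ U₁) ×ˢ (U₃ ×ˢ Ioc Y (2 * Y)) := ⟨_, rfl⟩
  obtain ⟨w, hw⟩ : ∃ w : (ℕ × ℕ) × (ℕ × ℕ) → ℕ,
      w = fun i => i.1.1 + i.1.2 + i.2.2 ^ k * i.2.1 := ⟨_, rfl⟩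
  have hwle : ∀ i ∈ T, 2 * w i ≤ N := fun i hi => by
    rw [hT, mem_product, mem_product, mem_product, mem_Ioc] at hi
    have h1 := hsize₁ _ hi.1.1
    have h2 := hsize₁ _ hi.1.2
    have h3 : i.2.2 ^ k * i.2.1 ≤ (2 * Y) ^ k * (3 * X₃) ^ k :=
      Nat.mul_le_mul (Nat.pow_le_pow_left hi.2.2.2 k)
        (by have := mem_range.1 (hU₃r hi.2.1); omega)
    rw [hw]
    dsimp only
    omega
  obtain ⟨M, hM⟩ : ∃ M, M = t * N := ⟨_, rfl⟩
  have hM2 : 2 * N ≤ M := hM ▸ Nat.mul_le_mul_right N (by omega)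
  have hM0 : (0 : ℝ) < M := Nat.cast_pos.2 (by omega)
  obtain ⟨S, hS⟩ : ∃ S : ℝ → ℂ, S = fun x => ∑ u ∈ U₁, eAdd (u * x) := ⟨_, rfl⟩
  obtain ⟨V, hV⟩ : ∃ V : ℝ → ℂ, V = bilinSum k Y U₃ := ⟨_, rfl⟩
  obtain ⟨F, hF⟩ : ∃ F : ℕ → ℕ → ℂ, F = fun (m h : ℕ) =>
      waringSum k P ((h : ℝ) / M) ^ t * eAdd (-((m : ℝ) * ((h : ℝ) / M))) := ⟨_, rfl⟩
  have hG : ∀ h : ℕ, waringSum k P ((h : ℝ) / M) ^ t *
      (S ((h : ℝ) / M) * S ((h : ℝ) / M) * V ((h : ℝ) / M)) *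
        eAdd (-((N : ℝ) * ((h : ℝ) / M))) = ∑ i ∈ T, F (N - w i) h := fun h => by
    have e : S ((h : ℝ) / M) * S ((h : ℝ) / M) * V ((h : ℝ) / M) =
        ∑ i ∈ T, eAdd ((w i : ℝ) * ((h : ℝ) / M)) := by
      rw [hS, hV, bilinSum, hT, sum_mul_sum, sum_mul, sum_product, sum_product, hw]
      refine sum_congr rfl fun u _ => ?_
      rw [sum_mul]
      refine sum_congr rfl fun v _ => ?_
      rw [mul_sum, sum_product]
      refine sum_congr rfl fun b _ => ?_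
      rw [mul_sum]
      refine sum_congr rfl fun y _ => ?_
      rw [← eAdd_add, ← eAdd_add]
      push_cast
      ring_nf
    rw [e, mul_sum, sum_mul]
    refine sum_congr rfl fun i hi => ?_
    rw [hF, mul_assoc, ← eAdd_add]
    push_cast [Nat.cast_sub (show w i ≤ N by have := hwle i hi; omega)]
    ring_nf
  suffices hne : ∃ i ∈ T, ∑ h ∈ range M, F (N - w i) h ≠ 0 by
    obtain ⟨i, hi, hne⟩ := hne
    have hwi := hwle i hi
    have e : ∀ x : ℝ, waringSum k P x = ∑ j ∈ Icc 1 P, (1 : ℂ) * eAdd ((j ^ k : ℕ) * x) :=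
      fun x => by
        rw [waringSum]
        refine sum_congr rfl fun j _ => ?_
        rw [one_mul, mul_comm]
        push_cast
        rfl
    have hg := sum_pow_grid (Icc 1 P) (fun _ => (1 : ℂ)) (fun j => j ^ k) (s := t)
      (N := N - w i) (M := M) (B := P ^ k)
      (fun j hj => Nat.pow_le_pow_left (mem_Icc.1 hj).2 k)
      (by have := Nat.mul_le_mul_left t hPN; omega) (by omega) 0
    simp only [add_zero, ← e] at hg
    rw [hF] at hne
    simp only at hne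
    rw [hg] at hne
    obtain ⟨z, hz, -⟩ := exists_ne_zero_of_sum_ne_zero (right_ne_zero_of_mul hne)
    rw [mem_filter] at hz
    rw [hT, mem_product, mem_product, mem_product] at hi
    obtain ⟨a, ha⟩ := hU₃rep _ hi.2.1
    have h3 : ∃ x : Fin r → ℕ, ∑ l, x l ^ k = i.2.2 ^ k * i.2.1 :=
      ⟨fun l => i.2.2 * a l, by simp only [mul_pow, ← mul_sum, ha]⟩
    have hall := exists_powers_add (i := t) (a := N - w i) ⟨z, hz.2⟩
      (exists_powers_add (exists_powers_add (hU₁rep _ hi.1.1) (hU₁rep _ hi.1.2)) h3)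
    have hsum : N - w i + (i.1.1 + i.1.2 + i.2.2 ^ k * i.2.1) = N := by
      rw [hw] at hwi ⊢
      dsimp only at hwi ⊢
      omega
    rwa [hsum] at hall
  by_contra hzero
  push Not at hzero
  have htot : ∑ h ∈ range M, ∑ i ∈ T, F (N - w i) h = 0 := by
    rw [sum_comm]
    exact sum_eq_zero hzero
  obtain ⟨A, hA⟩ : ∃ A, A = arcCentres ⌊(P : ℝ) ^ (1 / 10 : ℝ)⌋₊ := ⟨_, rfl⟩
  obtain ⟨δ, hδ⟩ : ∃ δ, δ = (P : ℝ) ^ (1 / 10 : ℝ) / (N : ℝ) := ⟨_, rfl⟩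
  have hdecomp : ∑ h ∈ range M, ∑ i ∈ T, F (N - w i) h =
      ∑ h ∈ minorSet M P N, ∑ i ∈ T, F (N - w i) h +
        ∑ z ∈ A, ∑ h ∈ arc M δ z, ∑ i ∈ T, F (N - w i) h := by
    rw [← sum_biUnion (hA ▸ hδ ▸ arc_pairwiseDisjoint M hk hP1 hPN), minorSet, ← hA, ← hδ,
      sum_sdiff]
    exact biUnion_subset.2 fun z _ => filter_subset _ _
  have hmajor : (T.card : ℝ) * (c * M * (N : ℝ) ^ 3) ≤
      (∑ z ∈ A, ∑ h ∈ arc M δ z, ∑ i ∈ T, F (N - w i) h).re := by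
    rw [sum_congr rfl fun z _ => sum_comm, sum_comm, Complex.re_sum, ← nsmul_eq_mul]
    refine card_nsmul_le_sum _ _ _ fun i hi => ?_
    have h1 := hmaj N (N - w i) hN1 hPP₁ (by have := hwle i hi; omega) (Nat.sub_le _ _)
    rw [majorPart, ← hP, ← hA, ← hδ, ← hM] at h1
    rw [hF]
    exact h1
  obtain ⟨D, hD⟩ : ∃ D : ℝ, D = U₃.card * ((Y : ℝ) * (K * (N / R))) := ⟨_, rfl⟩
  have hD0 : 0 ≤ D := hD ▸ by rw [hK]; positivity
  have hVD : ∀ h ∈ minorSet M P N, ‖V ((h : ℝ) / M)‖ ≤ √D := fun h hh => by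
    rw [minorSet, Finset.mem_sdiff, mem_biUnion] at hh
    refine Real.le_sqrt_of_sq_le ?_
    rw [hV]
    refine (norm_bilinSum_sq_le_minor (N := N) (n := P ^ (k - 1)) hk hY1 hN1 hU₃r hYR
      (h2R.trans (by exact_mod_cast Nat.le_self_pow (show k - 1 ≠ 0 by omega) P))
      fun z hz => ?_).trans ?_
    · by_contra hle
      exact hh.2 ⟨z, hR ▸ hz, mem_filter.2 ⟨hh.1, hR ▸ not_lt.1 hle⟩⟩
    rw [hD]
    refine mul_le_mul_of_nonneg_left (mul_le_mul_of_nonneg_left ?_ (Nat.cast_nonneg _))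
      (Nat.cast_nonneg _)
    have hNR : 1 ≤ (N : ℝ) / R := by
      rw [one_le_div (by linarith)]
      refine (show R ≤ P by linarith).trans ?_
      exact_mod_cast (Nat.le_self_pow (by omega) P).trans hPN
    have hPN' : (P : ℝ) ^ k ≤ N := by exact_mod_cast hPN
    have hH : ((3 * X₃) ^ k : ℕ) ≤ (2 : ℝ) ^ k * ((N : ℝ) / R) := by
      rw [mul_div_assoc', le_div_iff₀ (by linarith), ← hZk]
      have h1 : ((2 * Y) ^ k * (3 * X₃) ^ k : ℕ) ≤ (N : ℝ) := by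
        refine le_trans ?_ (Nat.cast_le.2 hPN)
        exact Nat.cast_le.2 (by omega)
      have h2 : Z ^ k ≤ (2 : ℝ) ^ k * ((2 * Y) ^ k : ℕ) := by
        push_cast
        rw [← mul_pow]
        exact pow_le_pow_left₀ (by linarith) (by linarith) k
      calc (((3 * X₃) ^ k : ℕ) : ℝ) * Z ^ k
          ≤ (((3 * X₃) ^ k : ℕ) : ℝ) * ((2 : ℝ) ^ k * ((2 * Y) ^ k : ℕ)) :=
            mul_le_mul_of_nonneg_left h2 (Nat.cast_nonneg _)
        _ = (2 : ℝ) ^ k * ((2 * Y) ^ k * (3 * X₃) ^ k : ℕ) := by push_cast; ring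
        _ ≤ _ := mul_le_mul_of_nonneg_left h1 (by positivity)
    have hYn : (Y : ℝ) * ((P ^ (k - 1) : ℕ) : ℝ) ≤ N / R := by
      rw [le_div_iff₀ (by linarith)]
      refine le_trans ?_ hPN'
      have e : (P : ℝ) ^ k = P * (P : ℝ) ^ (k - 1) := by
        rw [← pow_succ']; congr 1; omega
      rw [e]
      push_cast
      calc (Y : ℝ) * (P : ℝ) ^ (k - 1) * R = Y * R * (P : ℝ) ^ (k - 1) := by ring
        _ ≤ _ := mul_le_mul_of_nonneg_right
          ((mul_le_mul_of_nonneg_right hYR' (by linarith)).trans hR2) (by positivity)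
    rw [hK, add_mul]
    push_cast at hH hYn ⊢
    linarith
  have hN0 : (0 : ℝ) < N := Nat.cast_pos.2 hN1
  have hminor : ‖∑ h ∈ minorSet M P N, ∑ i ∈ T, F (N - w i) h‖ ≤
      (N : ℝ) ^ 4 * √D * (M * U₁.card) := by
    refine (norm_sum_le _ _).trans ((sum_le_sum (g := fun h : ℕ =>
      (N : ℝ) ^ 4 * √D * ‖S ((h : ℝ) / M)‖ ^ 2) fun h hh => ?_).trans ?_)
    · rw [← hG, norm_mul, norm_mul, norm_mul, norm_mul, norm_eAdd, mul_one, norm_pow, ← sq]
      calc ‖waringSum k P ((h : ℝ) / M)‖ ^ t * (‖S ((h : ℝ) / M)‖ ^ 2 * ‖V ((h : ℝ) / M)‖)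
          ≤ (N : ℝ) ^ 4 * (‖S ((h : ℝ) / M)‖ ^ 2 * √D) := by
            refine mul_le_mul ((pow_le_pow_left₀ (norm_nonneg _)
              (norm_waringSum_le _ _ _) t).trans ?_)
              (mul_le_mul_of_nonneg_left (hVD h hh) (by positivity)) (by positivity) (by positivity)
            rw [ht, mul_comm, pow_mul]
            exact pow_le_pow_left₀ (by positivity) (by exact_mod_cast hPN) 4
        _ = _ := by ring
    · rw [← mul_sum]
      refine mul_le_mul_of_nonneg_left (le_of_le_of_eq (sum_le_sum_of_subset_of_nonneg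
        (t := range M) (show minorSet M P N ⊆ range M from sdiff_subset)
        fun i _ _ => by positivity) ?_) (by positivity)
      rw [hS]
      exact sum_norm_sq_setSum fun u hu => mem_range.2 (by have := hsize₁ u hu; omega)
  have hTcard : (T.card : ℝ) = U₁.card * U₁.card * (U₃.card * Y) := by
    rw [hT, card_product, card_product, card_product, Nat.card_Ioc,
      show 2 * Y - Y = Y by omega]
    push_cast
    ring
  have hN4 : (N : ℝ) ^ 4 * √D * (M * U₁.card) <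
      (T.card : ℝ) * (c * M * (N : ℝ) ^ 3) := by
    have hU₁' : 0 < (U₁.card : ℝ) := lt_of_lt_of_le
      (mul_pos hcU (Real.rpow_pos_of_pos (Nat.cast_pos.2 hX₁1) E)) hU₁card
    have hU₃' : 0 < (U₃.card : ℝ) := lt_of_lt_of_le
      (mul_pos hcU (Real.rpow_pos_of_pos (Nat.cast_pos.2 hX₃1) E)) hU₃card
    suffices h : (N : ℝ) * √D < c * (U₁.card * (U₃.card * (Y : ℝ))) by
      rw [hTcard]
      calc (N : ℝ) ^ 4 * √D * (M * U₁.card)
          = ((N : ℝ) * √D) * ((N : ℝ) ^ 3 * M * U₁.card) := by ring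
        _ < c * (U₁.card * (U₃.card * (Y : ℝ))) * ((N : ℝ) ^ 3 * M * U₁.card) :=
            mul_lt_mul_of_pos_right h (by positivity)
        _ = _ := by ring
    refine lt_of_pow_lt_pow_left₀ 2 (by positivity) ?_
    rw [mul_pow, Real.sq_sqrt hD0, hD]
    suffices h : (N : ℝ) ^ 3 * K / R < c ^ 2 * ((U₁.card : ℝ) ^ 2 * U₃.card * Y) by
      calc (N : ℝ) ^ 2 * ((U₃.card : ℝ) * ((Y : ℝ) * (K * ((N : ℝ) / R))))
          = (U₃.card : ℝ) * Y * ((N : ℝ) ^ 3 * K / R) := by ring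
        _ < (U₃.card : ℝ) * Y * (c ^ 2 * ((U₁.card : ℝ) ^ 2 * U₃.card * Y)) :=
            mul_lt_mul_of_pos_left h (by positivity)
        _ = _ := by ring
    have hPpos : (0 : ℝ) < P := by linarith
    have hX₁' : (P : ℝ) / 16 ≤ X₁ := by
      rw [div_le_iff₀ (by norm_num)]
      exact_mod_cast (show P ≤ X₁ * 16 by omega)
    have hYpos : (0 : ℝ) < Y := Nat.cast_pos.2 hY1
    have hX₃' : (P : ℝ) / (32 * Z) ≤ X₃ := by
      rw [div_le_iff₀ (by positivity)]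
      have h1 : (P : ℝ) ≤ 32 * Y * X₃ := by exact_mod_cast hX₃ge
      have h2 : (32 : ℝ) * Y * X₃ ≤ 32 * Z * X₃ :=
        mul_le_mul_of_nonneg_right (by linarith) (Nat.cast_nonneg _)
      linarith
    -- the lower bound for the sets
    have hlow : L * ((P : ℝ) ^ (2 * E) * ((P : ℝ) ^ E / R) * (Z / 4)) ≤
        c ^ 2 * ((U₁.card : ℝ) ^ 2 * U₃.card * Y) := by
      have h1 : cU * ((1 / 16 : ℝ) ^ k * (P : ℝ) ^ E) ≤ U₁.card := by
        refine le_trans (mul_le_mul_of_nonneg_left ?_ hcU.le) hU₁card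
        refine le_trans ?_ (Real.rpow_le_rpow (by positivity) hX₁' hE0)
        rw [div_eq_mul_one_div (P : ℝ), Real.mul_rpow hPpos.le (by norm_num), mul_comm]
        refine mul_le_mul_of_nonneg_left ?_ (by positivity)
        rw [← Real.rpow_natCast]
        exact Real.rpow_le_rpow_of_exponent_ge (by norm_num) (by norm_num) hEk
      have h3 : cU * ((1 / 32 : ℝ) ^ k * ((P : ℝ) ^ E / R)) ≤ U₃.card := by
        refine le_trans (mul_le_mul_of_nonneg_left ?_ hcU.le) hU₃card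
        refine le_trans ?_ (Real.rpow_le_rpow (by positivity) hX₃' hE0)
        rw [Real.div_rpow hPpos.le (by positivity), ← hZk,
          show (1 / 32 : ℝ) ^ k * ((P : ℝ) ^ E / Z ^ k) = (P : ℝ) ^ E / (32 * Z) ^ k by
            rw [mul_pow, div_pow, one_pow]; ring]
        refine div_le_div_of_nonneg_left (by positivity) (by positivity) ?_
        rw [← Real.rpow_natCast (32 * Z) k]
        exact Real.rpow_le_rpow_of_exponent_le (by linarith) hEk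
      rw [hL]
      calc c ^ 2 * cU ^ 3 * (1 / 16) ^ (2 * k) * (1 / 32) ^ k *
            ((P : ℝ) ^ (2 * E) * ((P : ℝ) ^ E / R) * (Z / 4))
          = c ^ 2 * ((cU * ((1 / 16 : ℝ) ^ k * (P : ℝ) ^ E)) ^ 2 *
              (cU * ((1 / 32 : ℝ) ^ k * ((P : ℝ) ^ E / R))) * (Z / 4)) := by
            rw [show 2 * E = E + E by ring, Real.rpow_add hPpos]
            ring
        _ ≤ _ := by
            gcongr
            linarith
    refine lt_of_lt_of_le ?_ hlow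
    have hsplit : (P : ℝ) ^ (2 * E) * ((P : ℝ) ^ E / R) * Z =
        (P : ℝ) ^ ((3 * k : ℕ) : ℝ) *
          (P : ℝ) ^ (1 / (10 * (k : ℝ)) - 3 * ((k : ℝ) * η)) / R := by
      rw [hZ, mul_div_assoc', div_mul_eq_mul_div, ← Real.rpow_add hPpos, ← Real.rpow_add hPpos,
        ← Real.rpow_add hPpos, hE]
      congr 2
      push_cast
      ring
    have hexp : 1 / (16 * (k : ℝ)) ≤ 1 / (10 * (k : ℝ)) - 3 * ((k : ℝ) * η) := by
      have h1 : (k : ℝ) * η ≤ 1 / (80 * (k : ℝ)) := by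
        refine (mul_le_mul_of_nonneg_left hη' hk0.le).trans (le_of_eq ?_)
        field_simp
      have e : 1 / (10 * (k : ℝ)) = 1 / (16 * (k : ℝ)) + 3 * (1 / (80 * (k : ℝ))) := by
        field_simp
        ring
      linarith
    have hNup : (N : ℝ) ^ 3 ≤ 2 ^ (3 * k) * (P : ℝ) ^ ((3 * k : ℕ) : ℝ) := by
      rw [Real.rpow_natCast, ← mul_pow, mul_comm 3 k, pow_mul]
      refine pow_le_pow_left₀ (Nat.cast_nonneg _) ?_ 3
      exact_mod_cast hNP.le.trans (Nat.pow_le_pow_left (show P + 1 ≤ 2 * P by omega) k)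
    have hK0 : 0 < K := hK ▸ by positivity
    obtain ⟨Φ, hΦ⟩ : ∃ Φ, Φ = (P : ℝ) ^ (1 / (16 * (k : ℝ))) := ⟨_, rfl⟩
    rw [← hΦ, div_lt_iff₀ hL0] at hbig
    have hΦ' : Φ ≤ (P : ℝ) ^ (1 / (10 * (k : ℝ)) - 3 * ((k : ℝ) * η)) :=
      hΦ ▸ Real.rpow_le_rpow_of_exponent_le (by linarith) hexp
    have hP3 : 0 < (P : ℝ) ^ ((3 * k : ℕ) : ℝ) / R :=
      div_pos (Real.rpow_pos_of_pos hPpos _) (by linarith)
    refine lt_of_mul_lt_mul_left ?_ (show (0 : ℝ) ≤ 4 by norm_num)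
    calc 4 * ((N : ℝ) ^ 3 * K / R)
        ≤ 4 * (2 ^ (3 * k) * (P : ℝ) ^ ((3 * k : ℕ) : ℝ) * K / R) := by
          gcongr
      _ = K * 2 ^ (3 * k) * 4 * ((P : ℝ) ^ ((3 * k : ℕ) : ℝ) / R) := by ring
      _ < Φ * L * ((P : ℝ) ^ ((3 * k : ℕ) : ℝ) / R) := mul_lt_mul_of_pos_right hbig hP3
      _ ≤ 4 * (L * ((P : ℝ) ^ (2 * E) * ((P : ℝ) ^ E / R) * (Z / 4))) := by
          rw [show 4 * (L * ((P : ℝ) ^ (2 * E) * ((P : ℝ) ^ E / R) * (Z / 4))) =
            L * ((P : ℝ) ^ (2 * E) * ((P : ℝ) ^ E / R) * Z) by ring, hsplit]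
          refine le_of_eq_of_le (show _ = L * (Φ * ((P : ℝ) ^ ((3 * k : ℕ) : ℝ) / R)) by ring) ?_
          refine mul_le_mul_of_nonneg_left ?_ hL0.le
          rw [mul_div_right_comm, mul_comm (_ / R)]
          exact mul_le_mul_of_nonneg_right hΦ' hP3.le
  rw [hdecomp] at htot
  have h1 := congrArg Complex.re htot
  rw [Complex.add_re, Complex.zero_re] at h1
  have h2 := (abs_le.1 ((Complex.abs_re_le_norm _).trans hminor)).1
  linarith

end FA.WaringVinogradov
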