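import Fermat.Agent.WaringVinogradov.Local

/-!
# The major arcs with `4 k` variables

For `N/2 ≤ m ≤ N` the sum over the arcs `|α - a/q| ≤ P ^ (1/10) / N`, `q ≤ P ^ (1/10)`, of
`f (α) ^ (4 k) e (- m α)`, `f` Waring's sum up to `P = ⌊N ^ (1/k)⌋`, is at least `c M N ^ 3`.
-/

set_option autoImplicit false

noncomputable section

namespace FA.WaringVinogradov

open Finset FA.ThreePrimes FA.WaringAsymptotic Filter Topology
open scoped Real

/-- Waring's `4 k`-th power on the major arcs, against `e (- m α)`. -/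
def majorPart (k t N M m : ℕ) : ℂ :=
  ∑ z ∈ arcCentres ⌊(rootFloor k N : ℝ) ^ (1 / 10 : ℝ)⌋₊,
    ∑ h ∈ arc M ((rootFloor k N : ℝ) ^ (1 / 10 : ℝ) / N) z,
      waringSum k (rootFloor k N) ((h : ℝ) / M) ^ t * eAdd (-((m : ℝ) * ((h : ℝ) / M)))

theorem tendsto_rootFloor {k : ℕ} (hk : 1 ≤ k) : Tendsto (rootFloor k) atTop atTop := by
  refine tendsto_atTop.2 fun T => eventually_atTop.2 ⟨(T + 1) ^ k, fun N hN => ?_⟩
  have h := (rootFloor_spec hk ((Nat.one_le_pow _ _ (by omega)).trans hN)).2.2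
  by_contra h'
  have := Nat.pow_le_pow_left (show rootFloor k N + 1 ≤ T + 1 by omega) k
  omega

theorem sum_grid_shifted {k t N M m : ℕ} (ht : 2 ≤ t) (hm : 1 ≤ m) (hmN : m ≤ N) (hM : M = t * N)
    (θ : ℝ) :
    ∑ h ∈ range M, weightSum (1 / (k : ℝ)) N ((h : ℝ) / M + θ) ^ t *
        eAdd (-((m : ℝ) * ((h : ℝ) / M + θ))) =
      (M : ℂ) * weightConv (1 / (k : ℝ)) t m := by
  have h2 : 2 * N ≤ M := hM ▸ Nat.mul_le_mul_right N ht
  have hg := sum_pow_grid (Ioc 0 N) (fun m => (weight (1 / (k : ℝ)) m : ℂ)) (fun m => m) (s := t)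
    (N := m) (M := M) (B := N) (fun i hi => (mem_Ioc.1 hi).2) (by omega) (by omega) θ
  rw [weightConv, Complex.ofReal_sum]
  push_cast
  refine hg.trans (congrArg _ (sum_congr ?_ fun _ _ => rfl))
  ext z
  simp only [mem_filter, Fintype.mem_piFinset, mem_Ioc]
  constructor
  · rintro ⟨h1, h3⟩
    exact ⟨fun i => ⟨(h1 i).1, h3 ▸ single_le_sum (fun j _ => Nat.zero_le (z j)) (mem_univ i)⟩,
      h3⟩
  · rintro ⟨h1, h3⟩
    exact ⟨fun i => ⟨(h1 i).1, (h1 i).2.trans hmN⟩, h3⟩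

/-- **The major arcs.** -/
theorem exists_majorPart_ge {k t : ℕ} (hk : 2 ≤ k) (ht : t = 4 * k) : ∃ (c : ℝ) (P₀ : ℕ), 0 < c ∧
    ∀ N m : ℕ, 1 ≤ N → P₀ ≤ rootFloor k N → N ≤ 2 * m → m ≤ N →
      c * (t * N : ℕ) * (N : ℝ) ^ 3 ≤ (majorPart k t N (t * N) m).re := by
  have hk0 : (0 : ℝ) < k := by exact_mod_cast (show 0 < k by omega)
  have htk : (t : ℝ) / k = 4 := by rw [ht]; push_cast; field_simp
  obtain ⟨n, hn⟩ : ∃ n, t = n + 1 := ⟨t - 1, by omega⟩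
  obtain ⟨C₂, hC₂, harc⟩ := exists_arc_error hk n
  obtain ⟨C₃, hC₃, htail⟩ := exists_arc_tail_norm hk (show 3 * k ≤ t by omega)
  obtain ⟨Z, hZ0, hZ⟩ := exists_sum_norm_arcCoef_le hk (show 3 * k ≤ t by omega)
  obtain ⟨C₄, hC₄, hser⟩ := exists_singular_tail hk (show 3 * k ≤ t by omega)
  obtain ⟨c₀, hc₀, hpos⟩ := exists_singularSeries_ge_four hk (show 4 * k ≤ t by omega)
  obtain ⟨C₆, hC₆, hconv⟩ := exists_weightConv_asymptotic (c := 1 / (k : ℝ)) (by positivity)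
    (show 2 ≤ (t : ℝ) * (1 / k) by rw [mul_one_div, htk]; norm_num)
  simp only [mul_one_div, htk] at hconv
  obtain ⟨g, hg⟩ : ∃ g, g = Real.Gamma (1 + 1 / (k : ℝ)) ^ t / Real.Gamma (4 : ℝ) := ⟨_, rfl⟩
  have hg0 : 0 < g := hg ▸ div_pos (pow_pos (Real.Gamma_pos_of_pos (by positivity)) t)
    (Real.Gamma_pos_of_pos (by norm_num))
  have hlim : ∀ e : ℝ, 0 < e → Tendsto (fun P : ℕ => (P : ℝ) ^ (-e)) atTop (𝓝 0) := fun e he =>
    (tendsto_rpow_neg_atTop he).comp tendsto_natCast_atTop_atTop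
  obtain ⟨c, hc⟩ : ∃ c, c = g / 16 * (c₀ / 2) := ⟨_, rfl⟩
  have hc' : 0 < c := hc ▸ by positivity
  have hev : ∀ᶠ P : ℕ in atTop, (C₂ + Z * C₃) * (P : ℝ) ^ (-(1 / 10) : ℝ) ≤ c / 2 ∧
      C₄ * (P : ℝ) ^ (-(1 / 50) : ℝ) ≤ c₀ / 2 ∧ 4 * C₆ / g ≤ (P : ℝ) := by
    refine (Eventually.and ?_ (Eventually.and ?_
      (tendsto_natCast_atTop_atTop.eventually (eventually_ge_atTop _))))
    · have := (hlim _ (show (0 : ℝ) < 1 / 10 by norm_num)).const_mul (C₂ + Z * C₃)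
      rw [mul_zero] at this
      exact this.eventually (eventually_le_nhds (by positivity))
    · have := (hlim _ (show (0 : ℝ) < 1 / 50 by norm_num)).const_mul C₄
      rw [mul_zero] at this
      exact this.eventually (eventually_le_nhds (by positivity))
  obtain ⟨P₀, hP₀⟩ := eventually_atTop.1 hev
  refine ⟨c / 2, max P₀ 1, by positivity, fun N m hN hPP hm2 hmN => ?_⟩
  obtain ⟨P, hP⟩ : ∃ P, P = rootFloor k N := ⟨_, rfl⟩
  obtain ⟨hP1, hPN, hNP⟩ := rootFloor_spec (show 1 ≤ k by omega) hN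
  obtain ⟨hsmall, hsmallQ, hbigP⟩ := hP₀ (rootFloor k N) (le_trans (le_max_left _ _) hPP)
  rw [majorPart, ← hP]
  rw [← hP] at hP1 hPN hNP hsmall hsmallQ hbigP
  have hPr : (1 : ℝ) ≤ P := by exact_mod_cast hP1
  have hNr : (1 : ℝ) ≤ N := by exact_mod_cast hN
  obtain ⟨Q, hQ⟩ : ∃ Q, Q = ⌊(P : ℝ) ^ (1 / 10 : ℝ)⌋₊ := ⟨_, rfl⟩
  obtain ⟨δ, hδ⟩ : ∃ δ, δ = (P : ℝ) ^ (1 / 10 : ℝ) / (N : ℝ) := ⟨_, rfl⟩
  obtain ⟨M, hM⟩ : ∃ M, M = t * N := ⟨_, rfl⟩
  rw [← hQ, ← hδ, ← hM]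
  have hm1 : 1 ≤ m := by omega
  obtain ⟨W, hW⟩ : ∃ W : ℕ → ℕ → (Σ _ : ℕ, ℕ) → ℂ, W = fun (l h : ℕ) z =>
      weightSum (1 / (k : ℝ)) N ((h : ℝ) / M + -centre z) ^ t *
        eAdd (-((l : ℝ) * ((h : ℝ) / M + -centre z))) := ⟨_, rfl⟩
  have hWN : ∀ l h z, ‖W l h z‖ =
      ‖WaringAsymptotic.mainTerm k t N ((h : ℝ) / M + -centre z)‖ := fun l h z => by
    simp [hW, WaringAsymptotic.mainTerm, norm_eAdd]
  have hWm : ∀ (l h : ℕ) (z : Σ _ : ℕ, ℕ),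
      waringSum k P ((h : ℝ) / M) ^ t * eAdd (-((l : ℝ) * ((h : ℝ) / M))) -
          arcCoef k t l z * W l h z =
        (waringSum k P ((h : ℝ) / M) ^ t - densityFactor k z.1 z.2 ^ t *
          weightSum (1 / (k : ℝ)) N ((h : ℝ) / M + -centre z) ^ t) *
            eAdd (-((l : ℝ) * ((h : ℝ) / M))) := fun l h z => by
    have e : eAdd (-((l : ℝ) * centre z)) * eAdd (-((l : ℝ) * ((h : ℝ) / M + -centre z))) =
        eAdd (-((l : ℝ) * ((h : ℝ) / M))) := by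
      rw [← eAdd_add]
      ring_nf
    rw [arcCoef, hW, mul_mul_mul_comm, e]
    ring
  obtain ⟨F, hF⟩ : ∃ F : ℕ → ℂ, F = fun h : ℕ =>
      waringSum k P ((h : ℝ) / M) ^ t * eAdd (-((m : ℝ) * ((h : ℝ) / M))) := ⟨_, rfl⟩
  have hM0 : (0 : ℝ) < M := Nat.cast_pos.2 (hM ▸ Nat.mul_pos (by omega) hN)
  have p3 : ‖∑ z ∈ arcCentres Q, ∑ h ∈ arc M δ z, (F h - arcCoef k t m z * W m h z)‖ ≤
      M * (N : ℝ) ^ 3 * (C₂ * (P : ℝ) ^ (-(1 / 10) : ℝ)) := by
    refine (norm_sum_le _ _).trans ((sum_le_card_nsmul _ _ (C₂ * (P : ℝ) ^ ((n : ℝ) + 4 / 10))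
      fun z hz => ?_).trans ?_)
    · refine (norm_sum_le _ _).trans (le_of_eq_of_le (sum_congr rfl fun h _ => ?_)
        (hδ ▸ harc N P M hP hN (hn ▸ hM) z (hQ ▸ hz)))
      have h1 := hWm N h z
      simp only [hW] at h1
      rw [hF, hWm, norm_mul, norm_eAdd, ← hn,
        show WaringAsymptotic.mainTerm k t N ((h : ℝ) / M + -centre z) =
        weightSum (1 / (k : ℝ)) N ((h : ℝ) / M + -centre z) ^ t *
          eAdd (-((N : ℝ) * ((h : ℝ) / M + -centre z))) from rfl, h1, norm_mul, norm_eAdd]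
    · rw [nsmul_eq_mul]
      refine (mul_le_mul_of_nonneg_right (hQ ▸ card_arcCentres_le P hP1) (by positivity)).trans ?_
      have hPk : (P : ℝ) ^ (t : ℝ) ≤ M * (N : ℝ) ^ 3 := by
        rw [Real.rpow_natCast, hM, ht]
        push_cast
        have h1 : ((P : ℝ) ^ k) ^ 4 ≤ (N : ℝ) ^ 4 :=
          pow_le_pow_left₀ (by positivity) (by exact_mod_cast hPN) 4
        rw [← pow_mul, mul_comm k 4] at h1
        have h2 : (1 : ℝ) ≤ 4 * (k : ℝ) := by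
          exact_mod_cast (show 1 ≤ 4 * k by omega)
        calc _ ≤ (N : ℝ) ^ 4 := h1
          _ ≤ 4 * (k : ℝ) * (N : ℝ) ^ 4 := le_mul_of_one_le_left (by positivity) h2
          _ = _ := by ring
      calc (P : ℝ) ^ (2 / 10 : ℝ) * (C₂ * (P : ℝ) ^ ((n : ℝ) + 4 / 10))
          = C₂ * ((P : ℝ) ^ (t : ℝ) * (P : ℝ) ^ (-(4 / 10) : ℝ)) := by
            rw [mul_left_comm, ← Real.rpow_add (by linarith), ← Real.rpow_add (by linarith), hn]
            push_cast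
            ring_nf
        _ ≤ C₂ * ((M * (N : ℝ) ^ 3) * (P : ℝ) ^ (-(1 / 10) : ℝ)) := by
            refine mul_le_mul_of_nonneg_left (mul_le_mul hPk
              (Real.rpow_le_rpow_of_exponent_le hPr (by norm_num)) (by positivity) (by positivity))
              hC₂.le
        _ = _ := by ring
  have p5 : ‖∑ z ∈ arcCentres Q, arcCoef k t m z * ∑ h ∈ range M \ arc M δ z, W m h z‖ ≤
      M * (N : ℝ) ^ 3 * (Z * C₃ * (P : ℝ) ^ (-(1 / 10) : ℝ)) := by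
    refine (norm_sum_le _ _).trans ((sum_le_sum fun z hz => ?_).trans
      ((sum_mul _ _ (C₃ * M * (N : ℝ) ^ 3 * (P : ℝ) ^ (-(1 / 10) : ℝ))).ge.trans
        ((mul_le_mul_of_nonneg_right (hZ m Q) (by positivity)).trans (le_of_eq (by ring)))))
    rw [norm_mul]
    refine mul_le_mul_of_nonneg_left ((norm_sum_le _ _).trans (le_of_eq_of_le
      (sum_congr rfl fun h _ => hWN m h z) ((hδ ▸ htail N P M hP hN hM z (hQ ▸ hz)).trans
        (le_of_eq ?_)))) (norm_nonneg _)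
    rw [htk, ← Real.rpow_natCast (N : ℝ) 3]
    norm_num
  have hident : ∑ z ∈ arcCentres Q, ∑ h ∈ arc M δ z, F h =
      ((M : ℝ) * weightConv (1 / (k : ℝ)) t m : ℝ) *
          ∑ q ∈ Icc 1 Q, WaringAsymptotic.singularTerm k t m q +
        (∑ z ∈ arcCentres Q, ∑ h ∈ arc M δ z, (F h - arcCoef k t m z * W m h z) -
          ∑ z ∈ arcCentres Q, arcCoef k t m z * ∑ h ∈ range M \ arc M δ z, W m h z) := by
    have h1 : ∀ z ∈ arcCentres Q,
        ((M : ℝ) * weightConv (1 / (k : ℝ)) t m : ℝ) * arcCoef k t m z =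
          ∑ h ∈ arc M δ z, arcCoef k t m z * W m h z +
            arcCoef k t m z * ∑ h ∈ range M \ arc M δ z, W m h z := fun z _ => by
      rw [← mul_sum, ← mul_add, add_comm (∑ h ∈ arc M δ z, _), sum_sdiff
        (show arc M δ z ⊆ range M from filter_subset _ _), hW]
      dsimp only
      rw [sum_grid_shifted (by omega) hm1 hmN hM]
      push_cast
      ring
    rw [← sum_arcCoef k t m Q, mul_sum, sum_congr rfl h1, sum_add_distrib]
    simp only [sum_sub_distrib]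
    ring
  rw [hF] at hident
  rw [hident, Complex.add_re, Complex.re_ofReal_mul]
  have herr := (abs_le.1 ((Complex.abs_re_le_norm _).trans
    ((norm_sub_le _ _).trans (add_le_add p3 p5)))).1
  rw [hF] at herr
  have hJ : g / 16 * (N : ℝ) ^ 3 ≤ weightConv (1 / (k : ℝ)) t m := by
    have h1 := (abs_le.1 (hconv m hm1)).1
    rw [← hg, show (4 : ℝ) - 1 = ((3 : ℕ) : ℝ) by norm_num,
      show (4 : ℝ) - 2 = ((2 : ℕ) : ℝ) by norm_num, Real.rpow_natCast, Real.rpow_natCast] at h1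
    have hm' : (N : ℝ) ≤ 2 * m := by exact_mod_cast hm2
    have hPm : (P : ℝ) ≤ N := by exact_mod_cast (Nat.le_self_pow (by omega) P).trans hPN
    have h2 : C₆ * (m : ℝ) ^ 2 ≤ g / 2 * (m : ℝ) ^ 3 := by
      rw [div_le_iff₀ hg0] at hbigP
      have h3 : C₆ ≤ g / 2 * m := by
        have := mul_le_mul_of_nonneg_left (hPm.trans hm') hg0.le
        linarith
      calc C₆ * (m : ℝ) ^ 2 ≤ g / 2 * m * (m : ℝ) ^ 2 :=
            mul_le_mul_of_nonneg_right h3 (by positivity)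
        _ = _ := by ring
    have h4 : g / 2 * ((N : ℝ) / 2) ^ 3 ≤ g / 2 * (m : ℝ) ^ 3 :=
      mul_le_mul_of_nonneg_left (pow_le_pow_left₀ (by positivity) (by linarith) 3) (by positivity)
    linarith
  have hS : c₀ / 2 ≤ (∑ q ∈ Icc 1 Q, WaringAsymptotic.singularTerm k t m q).re := by
    have h1 := hpos m
    rw [WaringAsymptotic.singularSeries] at h1
    have h2 := (abs_le.1 ((Complex.abs_re_le_norm _).trans (hser m Q).2.1)).1
    rw [Complex.sub_re] at h2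
    have h3 : ((Q + 1 : ℕ) : ℝ) ^ (-(1 / 5) : ℝ) ≤ (P : ℝ) ^ (-(1 / 50) : ℝ) := by
      refine (Real.rpow_le_rpow_of_nonpos (by positivity)
        (show (P : ℝ) ^ (1 / 10 : ℝ) ≤ ((Q + 1 : ℕ) : ℝ) by
          push_cast; exact hQ ▸ (Nat.lt_floor_add_one _).le) (by norm_num)).trans (le_of_eq ?_)
      rw [← Real.rpow_mul (by linarith)]
      norm_num
    have h4 := mul_le_mul_of_nonneg_left h3 hC₄.le
    linarith
  have h5 : c * M * (N : ℝ) ^ 3 ≤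
      (M : ℝ) * weightConv (1 / (k : ℝ)) t m *
        (∑ q ∈ Icc 1 Q, WaringAsymptotic.singularTerm k t m q).re := by
    rw [hc]
    calc g / 16 * (c₀ / 2) * M * (N : ℝ) ^ 3
        = (M : ℝ) * (g / 16 * (N : ℝ) ^ 3) * (c₀ / 2) := by ring
      _ ≤ _ := mul_le_mul (mul_le_mul_of_nonneg_left hJ hM0.le) hS (by positivity)
          (mul_nonneg hM0.le (le_trans (by positivity) hJ))
  have h6 : (M : ℝ) * (N : ℝ) ^ 3 * (C₂ * (P : ℝ) ^ (-(1 / 10) : ℝ)) +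
      (M : ℝ) * (N : ℝ) ^ 3 * (Z * C₃ * (P : ℝ) ^ (-(1 / 10) : ℝ)) ≤
      c / 2 * M * (N : ℝ) ^ 3 :=
    calc _ = (M : ℝ) * (N : ℝ) ^ 3 * ((C₂ + Z * C₃) * (P : ℝ) ^ (-(1 / 10) : ℝ)) := by ring
      _ ≤ (M : ℝ) * (N : ℝ) ^ 3 * (c / 2) := mul_le_mul_of_nonneg_left hsmall (by positivity)
      _ = _ := by ring
  linarith

end FA.WaringVinogradov
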